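/-
S37 / package P-D (helper65): Laurent-series toolkit for the conjugates of `α(c)` over `β(F_N)`.

* `exists_qExpand_eq`            : a series supported on `kℤ` is `W(q^k)`;
* `coeff_eq_zero_of_qScale_eq`   : a series fixed by `q ↦ ζ q` (`ζ` a primitive `ℓ`-th root of unity
                                   in a domain) is supported on `ℓℤ`;
* `qScale_prod_range`, `qScale_sum_range` : `∏_{b<ℓ} x(ζ^b q)` and `∑_{b<ℓ} x(ζ^b q)` are fixed
                                   by `q ↦ ζ q`;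
* `heckeKron ζ ℓ x`              : the series `x(q^ℓ) · W(q)`, where `W(q^ℓ) = ∏_{b<ℓ} x(ζ^b q)`
                                   (the formal norm from level `Nℓ` to level `N` along `q ↦ q^ℓ`);
* `pow_char_eq_qExpand`          : `x^ℓ = x^{(ℓ)}(q^ℓ)` in characteristic `ℓ`;
* `coeffMap_heckeKron_of_char`   : **Kronecker congruence**: after a ring homomorphism to a domain
                                   of characteristic `ℓ`, `heckeKron` becomes
                                   `x̄(q^ℓ) · x̄^{(ℓ)}(q)` (`x̄^{(ℓ)}` = Frobenius on coefficients).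
-/
import Mathlib
import Fermat.Agent.S28.Formal

set_option autoImplicit false
set_option linter.style.haveILetI false

noncomputable section

namespace Fermat.Agent.S37.H65

open ModularCurve Fermat.Agent.S28

section Contract

variable {R : Type*} [CommRing R]

theorem qExpand_congr {a b : ℕ} [NeZero a] [NeZero b] (h : a = b) (x : LaurentSeries R) :
    qExpand R a x = qExpand R b x := by
  subst h
  rfl

/-- A Laurent series supported on `kℤ` is of the form `W(q^k)`. -/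
theorem exists_qExpand_eq (k : ℕ) [NeZero k] (x : LaurentSeries R)
    (hx : ∀ n : ℤ, ¬ (k : ℤ) ∣ n → x.coeff n = 0) :
    ∃ W : LaurentSeries R, qExpand R k W = x := by
  have hk : (0 : ℤ) < k := by exact_mod_cast Nat.pos_of_ne_zero (NeZero.ne k)
  have hbdd : BddBelow (Function.support fun m : ℤ => x.coeff (k * m)) := by
    refine ⟨min x.order 0, ?_⟩
    intro m hm
    have h1 : x.order ≤ k * m := HahnSeries.order_le_of_coeff_ne_zero hm
    rcases le_or_gt 0 m with h | h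
    · exact le_trans (min_le_right _ _) h
    · refine le_trans (min_le_left _ _) (le_trans h1 ?_)
      nlinarith
  refine ⟨HahnSeries.ofSuppBddBelow _ hbdd, ?_⟩
  ext n
  by_cases hn : (k : ℤ) ∣ n
  · obtain ⟨m, rfl⟩ := hn
    rw [qExpand_coeff_mul]
    rfl
  · rw [qExpand_coeff_of_not_dvd k _ hn, hx n hn]

theorem qScale_qExpand_of_pow_eq_one (ζ : Rˣ) (ℓ : ℕ) [NeZero ℓ] (hζ : ζ ^ ℓ = 1)
    (x : LaurentSeries R) : qScale ζ (qExpand R ℓ x) = qExpand R ℓ x := by
  have h := qScale_vq_of_pow_eq_one ζ ℓ (NeZero.ne ℓ) hζ x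
  rwa [vq_eq_qExpand ℓ] at h

theorem qScale_pow_qExpand_of_pow_eq_one (ζ : Rˣ) (ℓ : ℕ) [NeZero ℓ] (hζ : ζ ^ ℓ = 1) (b : ℕ)
    (x : LaurentSeries R) : qScale (ζ ^ b) (qExpand R ℓ x) = qExpand R ℓ x :=
  qScale_qExpand_of_pow_eq_one (ζ ^ b) ℓ (by rw [← pow_mul, mul_comm, pow_mul, hζ, one_pow]) x

/-- `∏_{b<ℓ} x(ζ^b q)` is invariant under `q ↦ ζ q`. -/
theorem qScale_prod_range (ζ : Rˣ) (ℓ : ℕ) (hζ : ζ ^ ℓ = 1) (x : LaurentSeries R) :
    qScale ζ (∏ b ∈ Finset.range ℓ, qScale (ζ ^ b) x) = ∏ b ∈ Finset.range ℓ, qScale (ζ ^ b) x := by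
  rcases Nat.eq_zero_or_pos ℓ with rfl | hpos
  · simp
  obtain ⟨m, rfl⟩ : ∃ m, ℓ = m + 1 := ⟨ℓ - 1, by omega⟩
  rw [map_prod]
  have h1 : ∀ b, qScale ζ (qScale (ζ ^ b) x) = qScale (ζ ^ (b + 1)) x := by
    intro b
    rw [qScale_qScale, ← pow_succ']
  simp only [h1]
  rw [Finset.prod_range_succ (fun b => qScale (ζ ^ (b + 1)) x) m,
    Finset.prod_range_succ' (fun b => qScale (ζ ^ b) x) m, hζ, pow_zero]

/-- `∑_{b<ℓ} x(ζ^b q)` is invariant under `q ↦ ζ q`. -/
theorem qScale_sum_range (ζ : Rˣ) (ℓ : ℕ) (hζ : ζ ^ ℓ = 1) (x : LaurentSeries R) :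
    qScale ζ (∑ b ∈ Finset.range ℓ, qScale (ζ ^ b) x) = ∑ b ∈ Finset.range ℓ, qScale (ζ ^ b) x := by
  rcases Nat.eq_zero_or_pos ℓ with rfl | hpos
  · simp
  obtain ⟨m, rfl⟩ : ∃ m, ℓ = m + 1 := ⟨ℓ - 1, by omega⟩
  rw [map_sum]
  have h1 : ∀ b, qScale ζ (qScale (ζ ^ b) x) = qScale (ζ ^ (b + 1)) x := by
    intro b
    rw [qScale_qScale, ← pow_succ']
  simp only [h1]
  rw [Finset.sum_range_succ (fun b => qScale (ζ ^ (b + 1)) x) m,
    Finset.sum_range_succ' (fun b => qScale (ζ ^ b) x) m, hζ, pow_zero]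

end Contract

section Domain

variable {R : Type*} [CommRing R] [IsDomain R]

/-- A series fixed by `q ↦ ζ q`, `ζ` a primitive `ℓ`-th root of unity, is supported on `ℓℤ`. -/
theorem coeff_eq_zero_of_qScale_eq {ζ : Rˣ} {ℓ : ℕ} (hζ : IsPrimitiveRoot ζ ℓ)
    {x : LaurentSeries R} (hx : qScale ζ x = x) {n : ℤ} (hn : ¬ (ℓ : ℤ) ∣ n) : x.coeff n = 0 := by
  have h := congrArg (fun y => HahnSeries.coeff y n) hx
  simp only [qScale_coeff] at h
  have h1 : (((ζ ^ n : Rˣ) : R) - 1) * x.coeff n = 0 := by rw [sub_mul, h, one_mul, sub_self]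
  rcases mul_eq_zero.mp h1 with h2 | h2
  · exfalso
    apply hn
    have h3 : ζ ^ n = 1 := Units.ext (by simpa [sub_eq_zero] using h2)
    exact (hζ.zpow_eq_one_iff_dvd n).mp h3
  · exact h2

/-- `∏_{b<ℓ} x(ζ^b q)` is a series in `q^ℓ`. -/
theorem exists_qExpand_eq_prod {ζ : Rˣ} {ℓ : ℕ} [NeZero ℓ] (hζ : IsPrimitiveRoot ζ ℓ)
    (x : LaurentSeries R) :
    ∃ W : LaurentSeries R, qExpand R ℓ W = ∏ b ∈ Finset.range ℓ, qScale (ζ ^ b) x :=
  exists_qExpand_eq ℓ _ fun _ hn =>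
    coeff_eq_zero_of_qScale_eq hζ (qScale_prod_range ζ ℓ hζ.pow_eq_one x) hn

end Domain

section Kron

variable {R : Type*} [CommRing R]

open Classical in
/-- The formal norm from level `Nℓ` to level `N` along `q ↦ q^ℓ` of (the `α`-image of) a series
`x`: `heckeKron ζ ℓ x = x(q^ℓ) · W(q)`, where `W(q^ℓ) = ∏_{b<ℓ} x(ζ^b q)`. (Junk value `0` if no
such `W` exists, which does not happen over a domain with `ζ` primitive.) -/
def heckeKron (ζ : Rˣ) (ℓ : ℕ) [NeZero ℓ] (x : LaurentSeries R) : LaurentSeries R :=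
  if h : ∃ W : LaurentSeries R, qExpand R ℓ W = ∏ b ∈ Finset.range ℓ, qScale (ζ ^ b) x then
    qExpand R ℓ x * h.choose
  else 0

/-- Characterisation of `heckeKron`: any `Z` with `Z(q^ℓ) = x(q^{ℓ²}) ∏_b x(ζ^b q)`. -/
theorem heckeKron_eq_of_qExpand_eq {ζ : Rˣ} {ℓ : ℕ} [NeZero ℓ] {x Z : LaurentSeries R}
    (hW : ∃ W : LaurentSeries R, qExpand R ℓ W = ∏ b ∈ Finset.range ℓ, qScale (ζ ^ b) x)
    (h : qExpand R ℓ Z = qExpand R (ℓ * ℓ) x * ∏ b ∈ Finset.range ℓ, qScale (ζ ^ b) x) :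
    heckeKron ζ ℓ x = Z := by
  apply qExpand_injective ℓ
  rw [heckeKron, dif_pos hW, map_mul, hW.choose_spec, qExpand_qExpand, h]

theorem qExpand_heckeKron_of_exists {ζ : Rˣ} {ℓ : ℕ} [NeZero ℓ] {x : LaurentSeries R}
    (hW : ∃ W : LaurentSeries R, qExpand R ℓ W = ∏ b ∈ Finset.range ℓ, qScale (ζ ^ b) x) :
    qExpand R ℓ (heckeKron ζ ℓ x) =
      qExpand R (ℓ * ℓ) x * ∏ b ∈ Finset.range ℓ, qScale (ζ ^ b) x := by
  rw [heckeKron, dif_pos hW, map_mul, hW.choose_spec, qExpand_qExpand]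

/-- Defining property of `heckeKron` over a domain. -/
theorem qExpand_heckeKron [IsDomain R] {ζ : Rˣ} {ℓ : ℕ} [NeZero ℓ] (hζ : IsPrimitiveRoot ζ ℓ)
    (x : LaurentSeries R) :
    qExpand R ℓ (heckeKron ζ ℓ x) =
      qExpand R (ℓ * ℓ) x * ∏ b ∈ Finset.range ℓ, qScale (ζ ^ b) x :=
  qExpand_heckeKron_of_exists (exists_qExpand_eq_prod hζ x)

theorem heckeKron_mul [IsDomain R] {ζ : Rˣ} {ℓ : ℕ} [NeZero ℓ] (hζ : IsPrimitiveRoot ζ ℓ)
    (x y : LaurentSeries R) : heckeKron ζ ℓ (x * y) = heckeKron ζ ℓ x * heckeKron ζ ℓ y := by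
  apply qExpand_injective ℓ
  rw [map_mul, qExpand_heckeKron hζ, qExpand_heckeKron hζ, qExpand_heckeKron hζ, map_mul]
  simp only [map_mul, Finset.prod_mul_distrib]
  ring

theorem heckeKron_one [IsDomain R] {ζ : Rˣ} {ℓ : ℕ} [NeZero ℓ] (hζ : IsPrimitiveRoot ζ ℓ) :
    heckeKron ζ ℓ (1 : LaurentSeries R) = 1 := by
  apply qExpand_injective ℓ
  rw [qExpand_heckeKron hζ]
  simp

/-- Base change along a ring homomorphism under which `ζ` stays primitive (e.g. an injective one):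
`heckeKron` commutes with `coeffMap`. -/
theorem coeffMap_heckeKron {S : Type*} [CommRing S] [IsDomain R] [IsDomain S] (f : R →+* S)
    {ζ : Rˣ} {ℓ : ℕ} [NeZero ℓ] (hζ : IsPrimitiveRoot ζ ℓ)
    (hζ' : IsPrimitiveRoot (Units.map f.toMonoidHom ζ) ℓ) (x : LaurentSeries R) :
    coeffMap f (heckeKron ζ ℓ x) = heckeKron (Units.map f.toMonoidHom ζ) ℓ (coeffMap f x) := by
  symm
  apply heckeKron_eq_of_qExpand_eq (exists_qExpand_eq_prod hζ' _)
  rw [← coeffMap_qExpand, qExpand_heckeKron hζ, map_mul, map_prod, coeffMap_qExpand]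
  congr 1
  refine Finset.prod_congr rfl fun b _ => ?_
  rw [coeffMap_qScale, map_pow]

end Kron

section Frobenius

theorem ofPowerSeries_coeff_natCast {R : Type*} [CommRing R] (g : PowerSeries R) (m : ℕ) :
    (HahnSeries.ofPowerSeries ℤ R g).coeff (m : ℤ) = PowerSeries.coeff m g :=
  HahnSeries.ofPowerSeries_apply_coeff g m

theorem ofPowerSeries_coeff_of_neg {R : Type*} [CommRing R] (g : PowerSeries R) {n : ℤ}
    (hn : n < 0) : (HahnSeries.ofPowerSeries ℤ R g).coeff n = 0 := by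
  rw [HahnSeries.ofPowerSeries_apply]
  refine HahnSeries.embDomain_of_notMem_range ?_
  rintro ⟨m, rfl⟩
  have : (0 : ℤ) ≤ (m : ℤ) := Int.natCast_nonneg m
  exact absurd hn (not_lt.mpr this)

variable {k : Type*} [CommRing k] (ℓ : ℕ) [Fact ℓ.Prime] [CharP k ℓ]

omit [Fact ℓ.Prime] in
theorem charP_laurentSeries : CharP (LaurentSeries k) ℓ :=
  charP_of_injective_ringHom (f := (HahnSeries.C : k →+* LaurentSeries k))
    HahnSeries.C_injective ℓ

/-- **Freshman's dream for Laurent series**: in characteristic `ℓ`, `x^ℓ = x^{(ℓ)}(q^ℓ)`, where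
`x^{(ℓ)}` is `x` with the Frobenius applied to its coefficients. -/
theorem pow_char_eq_qExpand (x : LaurentSeries k) :
    x ^ ℓ = qExpand k ℓ (coeffMap (frobenius k ℓ) x) := by
  have : CharP (LaurentSeries k) ℓ := charP_laurentSeries ℓ
  have hℓ0 : ℓ ≠ 0 := (Fact.out : ℓ.Prime).ne_zero
  have key : frobenius (LaurentSeries k) ℓ =
      (qExpand k ℓ).comp (coeffMap (frobenius k ℓ)) := by
    apply IsLocalization.ringHom_ext (Submonoid.powers (PowerSeries.X : PowerSeries k))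
    ext f : 1
    show (HahnSeries.ofPowerSeries ℤ k f) ^ ℓ =
      qExpand k ℓ (coeffMap (frobenius k ℓ) (HahnSeries.ofPowerSeries ℤ k f))
    rw [← map_pow]
    have hf : f ^ ℓ = PowerSeries.map (frobenius k ℓ) (PowerSeries.expand ℓ hℓ0 f) :=
      (MvPowerSeries.map_frobenius_expand ℓ hℓ0).symm
    rw [hf]
    ext n
    by_cases hn : (ℓ : ℤ) ∣ n
    · obtain ⟨t, rfl⟩ := hn
      rw [qExpand_coeff_mul, coeffMap_coeff]
      rcases lt_or_ge t 0 with ht | ht
      · have hneg : (ℓ : ℤ) * t < 0 :=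
          mul_neg_of_pos_of_neg (by exact_mod_cast Nat.pos_of_ne_zero hℓ0) ht
        rw [ofPowerSeries_coeff_of_neg _ hneg, ofPowerSeries_coeff_of_neg _ ht, map_zero]
      · obtain ⟨t', rfl⟩ := Int.eq_ofNat_of_zero_le ht
        rw [show (ℓ : ℤ) * (t' : ℤ) = ((ℓ * t' : ℕ) : ℤ) by push_cast; ring,
          ofPowerSeries_coeff_natCast, ofPowerSeries_coeff_natCast, PowerSeries.coeff_map,
          PowerSeries.coeff_expand_mul]
    · rw [qExpand_coeff_of_not_dvd ℓ _ hn]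
      rcases lt_or_ge n 0 with hneg | hpos
      · exact ofPowerSeries_coeff_of_neg _ hneg
      · obtain ⟨m, rfl⟩ := Int.eq_ofNat_of_zero_le hpos
        have hm : ¬ ℓ ∣ m := fun h => hn (by exact_mod_cast h)
        rw [ofPowerSeries_coeff_natCast, PowerSeries.coeff_map,
          PowerSeries.coeff_expand_of_not_dvd ℓ hℓ0 _ hm, map_zero]
  have := congrArg (fun g : LaurentSeries k →+* LaurentSeries k => g x) key
  simpa [frobenius_def] using this

/-- **Kronecker congruence**: after a ring homomorphism `f` to a domain of characteristic `ℓ`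
(where `ζ` necessarily becomes `1`), `heckeKron ζ ℓ x` becomes `x̄(q^ℓ) · x̄^{(ℓ)}(q)`. -/
theorem coeffMap_heckeKron_of_char {R : Type*} [CommRing R] [IsDomain R] [IsDomain k]
    (f : R →+* k) {ζ : Rˣ} (hζ : IsPrimitiveRoot ζ ℓ) (x : LaurentSeries R) :
    coeffMap f (heckeKron ζ ℓ x) =
      qExpand k ℓ (coeffMap f x) * coeffMap (frobenius k ℓ) (coeffMap f x) := by
  have h1 : Units.map f.toMonoidHom ζ = 1 := by
    apply Units.ext
    apply frobenius_inj k ℓ
    rw [frobenius_def, frobenius_def, Units.coe_map, Units.val_one, one_pow]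
    show f (ζ : R) ^ ℓ = 1
    rw [← map_pow, ← Units.val_pow_eq_pow_val, hζ.pow_eq_one, Units.val_one, map_one]
  have h2 : ∏ b ∈ Finset.range ℓ, coeffMap f (qScale (ζ ^ b) x) = coeffMap f x ^ ℓ := by
    rw [Finset.prod_congr rfl (fun b _ => by
      rw [coeffMap_qScale, map_pow, h1, one_pow, qScale_one]), Finset.prod_const,
      Finset.card_range]
  apply qExpand_injective ℓ
  rw [← coeffMap_qExpand, qExpand_heckeKron hζ, map_mul, map_prod, h2, map_mul, qExpand_qExpand,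
    ← pow_char_eq_qExpand, coeffMap_qExpand]

end Frobenius

end Fermat.Agent.S37.H65
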