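/-
S37 / package P-D (helper65): the exact degree `[F_{Nℓ} : β(F_N)] = ℓ + 1` for a prime `ℓ ∤ N`,
where `β = heckeBetaBar` is `q ↦ q^ℓ`.

Proof: `[F_M : ℚ̄(j(q^M))] = ψ(M)` for every `M` (upper bound: landed S18/H66; lower bound: landed
S28/H19 with `(B)` over `ℚ̄`, which follows from the landed `[F_p : ℚ̄(j)] = p + 1 ≠ 1`), the
tower law, and `ψ(Nℓ) = (ℓ + 1) ψ(N)`.
-/
import Mathlib
import Fermat.Agent.S18.H66.Degree
import Fermat.Agent.S18.H60.Index
import Fermat.Agent.S28.H19.LowerFinal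
import Fermat.Prelude.Def_ModularCurve_HeckeOperator
import Fermat.Agent.S37.H65.Conj.Scale

set_option autoImplicit false
set_option linter.style.haveILetI false

noncomputable section

namespace Fermat.Agent.S37.H65

open ModularCurve AlgebraicCurve IntermediateField Fermat.Agent.S28 Fermat.Agent.S18.H66

/-- `(B)` over `ℚ̄`: `j(q^p) ∉ ℚ̄(j)`. -/
theorem jS_prime_not_mem_adjoin (p : ℕ) (hp : p.Prime) :
    jS Kb 1 p ∉ IntermediateField.adjoin Kb {jS Kb 1 1} := by
  intro hmem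
  have : NeZero p := ⟨hp.ne_zero⟩
  have h1 := Fermat.Agent.S18.H60.relfinrank_jAmb p
  have hj : Fermat.Agent.S18.H60.jAmb = jS Kb 1 1 := by
    rw [Fermat.Agent.S18.H60.jAmb]
    have := coeffEmb_qExpand_jq 1
    rw [this, qExpand_one_apply, jS_one_one]
  have hle : modularFunctionFieldBar p ≤ adjoin Kb {jS Kb 1 1} := by
    rw [modularFunctionFieldBar_eq_fullC, modularFunctionFieldFullC, adjoin_le_iff]
    rintro x ⟨d, hne, hdvd, rfl⟩
    have := hne
    rcases (Nat.dvd_prime hp).mp hdvd with rfl | rfl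
    · rw [qExpand_one_apply, ← jS_one_one (R := Kb)]
      exact subset_adjoin _ _ rfl
    · have h2 : jS Kb 1 d = qExpand Kb d (jqModC Kb) := by
        rw [jS_one_eq_jqNModC, jqNModC]
      rw [← h2]
      exact hmem
  rw [hj, relfinrank_eq_one_of_le hle] at h1
  have h3 := Fermat.Agent.S28.H53.dedekindPsi_mul_prime_of_not_dvd hp one_ne_zero
    (by intro h; exact hp.one_lt.ne' (Nat.dvd_one.mp h))
  rw [one_mul, dedekindPsi_one, mul_one] at h3
  have := hp.pos
  omega

/-- `[F_M : ℚ̄(j(q^M))] = ψ(M)`, in the ambient field `ℚ̄((q))`. -/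
theorem relfinrank_top_eq (M : ℕ) [NeZero M] :
    relfinrank (adjoin Kb {jqNModC Kb M}) (modularFunctionFieldFullC Kb M) = dedekindPsi M := by
  have hle := relrank_fullC_bar_le M
  have hge := Fermat.Agent.S28.H19.dedekindPsi_le_relrank_algClosed H23.hasModPolys Kb M
    (by exact_mod_cast NeZero.ne M) (fun p hp _ => jS_prime_not_mem_adjoin p hp)
  have heq : relrank (adjoin Kb {jqNModC Kb M}) (modularFunctionFieldFullC Kb M)
      = (dedekindPsi M : Cardinal) := le_antisymm hle hge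
  have h := congrArg Cardinal.toNat heq
  rw [Cardinal.toNat_natCast] at h
  exact h

/-- The image of `F_N` under `q ↦ q^ℓ`, as an intermediate field of `ℚ̄((q))`. -/
def betaImage (N ℓ : ℕ) [NeZero N] [NeZero ℓ] : IntermediateField Kb (LaurentSeries Kb) :=
  (modularFunctionFieldBar N).map (qExpandAlgHomC Kb ℓ)

theorem betaImage_le (N ℓ : ℕ) [NeZero N] [NeZero ℓ] :
    betaImage N ℓ ≤ modularFunctionFieldBar (N * ℓ) := by
  rw [betaImage, modularFunctionFieldBar_eq_fullC, modularFunctionFieldBar_eq_fullC]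
  exact full_degeneracyC_map_le Kb N ℓ

/-- `[F_{Nℓ} : F_N(q^ℓ)] = ℓ + 1` in the ambient field. -/
theorem relfinrank_betaImage (N ℓ : ℕ) [NeZero N] [NeZero ℓ] (hℓ : ℓ.Prime) (hℓN : ¬ ℓ ∣ N) :
    relfinrank (betaImage N ℓ) (modularFunctionFieldBar (N * ℓ)) = ℓ + 1 := by
  have hJ : (adjoin Kb {jqNModC Kb N}).map (qExpandAlgHomC Kb ℓ) = adjoin Kb {jqNModC Kb (N * ℓ)} := by
    rw [adjoin_map, Set.image_singleton, qExpandAlgHomC_apply, jqNModC, jqNModC, qExpand_qExpand,
      qExpand_congr (mul_comm ℓ N)]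
  have hJF : adjoin Kb {jqNModC Kb N} ≤ modularFunctionFieldBar N := by
    rw [adjoin_le_iff, modularFunctionFieldBar_eq_fullC]
    rintro _ rfl
    exact jqModCd_mem_full Kb N dvd_rfl
  have hJB : adjoin Kb {jqNModC Kb (N * ℓ)} ≤ betaImage N ℓ := by
    rw [← hJ, betaImage]
    exact IntermediateField.map_mono _ hJF
  have h1 := relfinrank_mul_relfinrank hJB (betaImage_le N ℓ)
  have h2 : relfinrank (adjoin Kb {jqNModC Kb (N * ℓ)}) (betaImage N ℓ) = dedekindPsi N := by
    rw [← hJ, betaImage, relfinrank_map_map, modularFunctionFieldBar_eq_fullC, relfinrank_top_eq]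
  have h3 : relfinrank (adjoin Kb {jqNModC Kb (N * ℓ)}) (modularFunctionFieldBar (N * ℓ))
      = dedekindPsi (N * ℓ) := by
    rw [modularFunctionFieldBar_eq_fullC, relfinrank_top_eq]
  rw [h2, h3, Fermat.Agent.S28.H53.dedekindPsi_mul_prime_of_not_dvd hℓ (NeZero.ne N) hℓN,
    mul_comm] at h1
  exact Nat.eq_of_mul_eq_mul_right (Fermat.Agent.S18.H60.dedekindPsi_pos N) h1

/-- **Exact degree**: `F_{Nℓ}` has degree `ℓ + 1` over `F_N` along `β : q ↦ q^ℓ`. -/
theorem finrank_beta (N ℓ : ℕ) [NeZero N] [NeZero ℓ] (hℓ : ℓ.Prime) (hℓN : ¬ ℓ ∣ N) :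
    letI := algebraAlong (heckeBetaBar Kb N ℓ)
    Module.finrank (modularFunctionFieldBar N) (modularFunctionFieldBar (N * ℓ)) = ℓ + 1 := by
  letI := algebraAlong (heckeBetaBar Kb N ℓ)
  rw [← relfinrank_betaImage N ℓ hℓ hℓN,
    ← Fermat.Agent.S18.H60.finrank_inclusion_eq_relfinrank (betaImage_le N ℓ)]
  letI : Algebra (betaImage N ℓ) (modularFunctionFieldBar (N * ℓ)) :=
    (IntermediateField.inclusion (betaImage_le N ℓ)).toRingHom.toAlgebra
  refine Algebra.finrank_eq_of_equiv_equiv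
    (IntermediateField.equivMap (modularFunctionFieldBar N) (qExpandAlgHomC Kb ℓ)).toRingEquiv
    (RingEquiv.refl _) ?_
  ext x
  rfl

end Fermat.Agent.S37.H65
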