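/-
S37 / package P-D (helper65): the conjugates of `α(c)` over `β(F_N)` and the norm formula

  `N_{F_{Nℓ}/β(F_N)}(α c)(q^ℓ) = c(q^{ℓ²}) · ∏_{b<ℓ} c(ζ^b q)`     (`qExpand_norm_alpha`),

i.e. `N_{F_{Nℓ}/β(F_N)}(α c) = heckeKron ζ ℓ c` as `q`-series (`coe_norm_alpha`).

Proof: `[F_{Nℓ} : β(F_N)] = ℓ + 1` (`Degree.lean`); the `ℓ` substitutions `q ↦ ζ^b q` are
`β(F_N)`-embeddings of `F_{Nℓ}` into an algebraic closure `Ω` of `ℚ̄((q))`, so there is exactly one
more embedding `ψ`.  By the trace formula `ψ` takes values in (the image of) the series in `q^ℓ`;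
on the generators `j(q^d)`, `d ∣ N`, the factorisation of the modular polynomial
`Φ_ℓ(X, j(q^{dℓ})) = (X - j(q^{dℓ²})) ∏_b (X - j(ζ^b q^d))` then forces `ψ(j(q^d)) = j(q^{dℓ²})`
(the other roots are not series in `q^ℓ` because `ℓ ∤ d`), hence `ψ(α c) = c(q^{ℓ²})` for all `c`.
-/
import Mathlib
import Fermat.Agent.S37.H65.Conj.Degree
import Fermat.Agent.S37.H65.Conj.Scale

set_option autoImplicit false
set_option linter.style.haveILetI false
set_option linter.unusedSectionVars false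

noncomputable section

namespace Fermat.Agent.S37.H65

open ModularCurve AlgebraicCurve IntermediateField Polynomial Fermat.Agent.S28
  Fermat.Agent.S18.H66

section Generic

/-- If `E/F` is separable of degree `n + 1` and `σ_0, …, σ_{n-1}` are pairwise distinct
`F`-embeddings of `E` into an algebraically closed field, there is exactly one more embedding `ψ`,
and norm and trace are the product and sum over `ψ, σ_0, …, σ_{n-1}`. -/
theorem exists_last_embedding {F E Ω : Type*} [Field F] [Field E] [Field Ω] [Algebra F E]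
    [Algebra F Ω] [FiniteDimensional F E] [Algebra.IsSeparable F E] [IsAlgClosed Ω] {n : ℕ}
    (hn : Module.finrank F E = n + 1) (σ : ℕ → (E →ₐ[F] Ω))
    (hσ : Set.InjOn σ (Finset.range n : Set ℕ)) :
    ∃ ψ : E →ₐ[F] Ω, ∀ x : E,
      algebraMap F Ω (Algebra.norm F x) = ψ x * ∏ b ∈ Finset.range n, σ b x ∧
      algebraMap F Ω (Algebra.trace F E x) = ψ x + ∑ b ∈ Finset.range n, σ b x := by
  classical
  have hcard : Fintype.card (E →ₐ[F] Ω) = n + 1 := by rw [AlgHom.card, hn]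
  set S : Finset (E →ₐ[F] Ω) := (Finset.range n).image σ with hS
  have hScard : S.card = n := by rw [hS, Finset.card_image_of_injOn hσ, Finset.card_range]
  have hcompl : (Finset.univ \ S).card = 1 := by
    rw [Finset.card_sdiff_of_subset (Finset.subset_univ _), Finset.card_univ, hcard, hScard]
    omega
  obtain ⟨ψ, hψ⟩ := Finset.card_eq_one.mp hcompl
  refine ⟨ψ, fun x => ⟨?_, ?_⟩⟩
  · rw [Algebra.norm_eq_prod_embeddings F Ω x, ← Finset.prod_sdiff (Finset.subset_univ S), hψ,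
      Finset.prod_singleton, hS, Finset.prod_image hσ]
  · rw [trace_eq_sum_embeddings Ω, ← Finset.sum_sdiff (Finset.subset_univ S), hψ,
      Finset.sum_singleton, hS, Finset.sum_image hσ]

/-- Two ring homomorphisms out of an intermediate field generated by `S` agree as soon as they
agree on the constants and on `S`. -/
theorem ringHom_ext_of_le_adjoin {K L Ω : Type*} [Field K] [Field L] [Algebra K L] [Field Ω]
    (M : IntermediateField K L) {S : Set L} (hS : S ⊆ M) (hM : M ≤ adjoin K S)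
    (g₁ g₂ : M →+* Ω) (hK : ∀ a : K, g₁ (algebraMap K M a) = g₂ (algebraMap K M a))
    (hgen : ∀ x (hx : x ∈ S), g₁ ⟨x, hS hx⟩ = g₂ ⟨x, hS hx⟩) : g₁ = g₂ := by
  have hSM : adjoin K S ≤ M := adjoin_le_iff.mpr hS
  have key : ∀ x (_ : x ∈ adjoin K S), ∀ hx' : x ∈ M, g₁ ⟨x, hx'⟩ = g₂ ⟨x, hx'⟩ := by
    intro x hx
    induction hx using IntermediateField.adjoin_induction with
    | mem y hy => intro _; exact hgen y hy
    | algebraMap a => intro _; exact hK a
    | add y z hy hz iy iz =>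
      intro h
      have e : (⟨y + z, h⟩ : M) = ⟨y, hSM hy⟩ + ⟨z, hSM hz⟩ := rfl
      rw [e, map_add, map_add, iy, iz]
    | inv y hy iy =>
      intro h
      have e : (⟨y⁻¹, h⟩ : M) = (⟨y, hSM hy⟩ : M)⁻¹ := rfl
      rw [e, map_inv₀, map_inv₀, iy]
    | mul y z hy hz iy iz =>
      intro h
      have e : (⟨y * z, h⟩ : M) = ⟨y, hSM hy⟩ * ⟨z, hSM hz⟩ := rfl
      rw [e, map_mul, map_mul, iy, iz]
  ext ⟨x, hx⟩
  exact key x (hM hx) hx

end Generic

/-- An algebraic closure of `ℚ̄((q))`.  (A plain `def` with a phantom parameter `ℓ`, so that the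
only algebra structure of `F_N` on it is the one declared below, along `q ↦ q^ℓ`.) -/
def Om (_ℓ : ℕ) : Type := AlgebraicClosure (LaurentSeries Kb)

instance (ℓ : ℕ) : Field (Om ℓ) := inferInstanceAs (Field (AlgebraicClosure (LaurentSeries Kb)))

instance (ℓ : ℕ) : IsAlgClosed (Om ℓ) :=
  inferInstanceAs (IsAlgClosed (AlgebraicClosure (LaurentSeries Kb)))

/-- `ℚ̄((q)) → Ω`. -/
def iota (ℓ : ℕ) : LaurentSeries Kb →+* Om ℓ :=
  algebraMap (LaurentSeries Kb) (AlgebraicClosure (LaurentSeries Kb))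

theorem iota_injective (ℓ : ℕ) : Function.Injective (iota ℓ) := RingHom.injective _

section Modular

variable (N ℓ : ℕ) [NeZero N] [NeZero ℓ]

/-- `F_{Nℓ}` as an `F_N`-algebra along `β : q ↦ q^ℓ`. -/
abbrev algBeta : Algebra ↥(modularFunctionFieldBar N) ↥(modularFunctionFieldBar (N * ℓ)) :=
  algebraAlong (heckeBetaBar Kb N ℓ)

/-- `F_N → Ω`, `f ↦ f(q^ℓ)`. -/
def baseHom : ↥(modularFunctionFieldBar N) →+* Om ℓ :=
  (iota ℓ).comp ((qExpand Kb ℓ).comp (algebraMap ↥(modularFunctionFieldBar N) (LaurentSeries Kb)))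

/-- `Ω` as an `F_N`-algebra along `q ↦ q^ℓ`. -/
abbrev algOm : Algebra ↥(modularFunctionFieldBar N) (Om ℓ) := (baseHom N ℓ).toAlgebra

attribute [local instance] algBeta algOm

theorem algebraMap_Om_apply (f : ↥(modularFunctionFieldBar N)) :
    algebraMap ↥(modularFunctionFieldBar N) (Om ℓ) f = iota ℓ (qExpand Kb ℓ (f : LaurentSeries Kb)) :=
  rfl

theorem coe_algebraMap_beta (f : ↥(modularFunctionFieldBar N)) :
    ((algebraMap ↥(modularFunctionFieldBar N) ↥(modularFunctionFieldBar (N * ℓ)) f :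
      ↥(modularFunctionFieldBar (N * ℓ))) : LaurentSeries Kb) = qExpand Kb ℓ (f : LaurentSeries Kb) :=
  rfl

/-- The embedding `g ↦ g(ζ^b q)` of `F_{Nℓ}` into `Ω` over `β(F_N)`. -/
def sig (ζ : Kbˣ) (hζ : ζ ^ ℓ = 1) (b : ℕ) :
    ↥(modularFunctionFieldBar (N * ℓ)) →ₐ[↥(modularFunctionFieldBar N)] Om ℓ :=
  { (iota ℓ).comp ((qScale (ζ ^ b)).comp
      (algebraMap ↥(modularFunctionFieldBar (N * ℓ)) (LaurentSeries Kb))) with
    commutes' := fun f => by
      show iota ℓ (qScale (ζ ^ b) (qExpand Kb ℓ (f : LaurentSeries Kb))) =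
        iota ℓ (qExpand Kb ℓ (f : LaurentSeries Kb))
      rw [qScale_pow_qExpand_of_pow_eq_one ζ ℓ hζ] }

theorem sig_apply (ζ : Kbˣ) (hζ : ζ ^ ℓ = 1) (b : ℕ) (g : ↥(modularFunctionFieldBar (N * ℓ))) :
    sig N ℓ ζ hζ b g = iota ℓ (qScale (ζ ^ b) (g : LaurentSeries Kb)) :=
  rfl

/-- `j(q^d)` as an element of `F_M`, `d ∣ M`. -/
def jEl (M d : ℕ) [NeZero M] [NeZero d] (hd : d ∣ M) : ↥(modularFunctionFieldBar M) :=
  ⟨qExpand Kb d (jqModC Kb), by
    rw [modularFunctionFieldBar_eq_fullC]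
    exact jqModCd_mem_full Kb M hd⟩

theorem coe_jEl (M d : ℕ) [NeZero M] [NeZero d] (hd : d ∣ M) :
    ((jEl M d hd : ↥(modularFunctionFieldBar M)) : LaurentSeries Kb) = jS Kb 1 d := by
  rw [jS_one_eq_jqNModC, jqNModC]
  rfl

theorem sig_injOn (ζ : Kbˣ) (hζ : IsPrimitiveRoot ζ ℓ) :
    Set.InjOn (sig N ℓ ζ hζ.pow_eq_one) (Finset.range ℓ : Set ℕ) := by
  intro b hb b' hb' h
  have h1 := congrArg (fun σ : ↥(modularFunctionFieldBar (N * ℓ)) →ₐ[↥(modularFunctionFieldBar N)]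
    Om ℓ => σ (jEl (N * ℓ) 1 (one_dvd _))) h
  simp only [sig_apply] at h1
  have h2 := iota_injective ℓ h1
  rw [coe_jEl, jS_one_one] at h2
  have h3 := congrArg (fun y => HahnSeries.coeff y (-1)) h2
  simp only [qScale_coeff, coeff_jqModC_neg_one, mul_one] at h3
  have h4 : (ζ ^ b) ^ (-1 : ℤ) = (ζ ^ b') ^ (-1 : ℤ) := Units.ext h3
  rw [zpow_neg_one, zpow_neg_one, inv_inj] at h4
  exact hζ.pow_inj (Finset.mem_range.mp hb) (Finset.mem_range.mp hb') h4

/-- The values of the last embedding `ψ` are (images of) series in `q^ℓ`. -/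
theorem last_embedding_fixed (ζ : Kbˣ) (hζ : ζ ^ ℓ = 1)
    (ψ : ↥(modularFunctionFieldBar (N * ℓ)) →ₐ[↥(modularFunctionFieldBar N)] Om ℓ)
    (x : ↥(modularFunctionFieldBar (N * ℓ)))
    (htr : algebraMap ↥(modularFunctionFieldBar N) (Om ℓ)
        (Algebra.trace ↥(modularFunctionFieldBar N) ↥(modularFunctionFieldBar (N * ℓ)) x) =
      ψ x + ∑ b ∈ Finset.range ℓ, sig N ℓ ζ hζ b x) :
    ∃ w : LaurentSeries Kb, ψ x = iota ℓ w ∧ qScale ζ w = w := by
  refine ⟨qExpand Kb ℓ ((Algebra.trace ↥(modularFunctionFieldBar N)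
      ↥(modularFunctionFieldBar (N * ℓ)) x : ↥(modularFunctionFieldBar N)) : LaurentSeries Kb) -
    ∑ b ∈ Finset.range ℓ, qScale (ζ ^ b) (x : LaurentSeries Kb), ?_, ?_⟩
  · rw [map_sub, map_sum, ← algebraMap_Om_apply, htr]
    simp only [sig_apply]
    ring
  · rw [map_sub, qScale_qExpand_of_pow_eq_one ζ ℓ hζ, qScale_sum_range ζ ℓ hζ]

/-- The last embedding on the generators: `ψ(j(q^d)) = j(q^{dℓ²})` for `d ∣ N`. -/
theorem last_embedding_gen (hℓ : ℓ.Prime) (hℓN : ¬ ℓ ∣ N) (ζ : Kbˣ) (hζ : IsPrimitiveRoot ζ ℓ)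
    (ψ : ↥(modularFunctionFieldBar (N * ℓ)) →ₐ[↥(modularFunctionFieldBar N)] Om ℓ)
    (d : ℕ) [NeZero d] (hd : d ∣ N) (w : LaurentSeries Kb)
    (hw : ψ (jEl (N * ℓ) d (hd.mul_right ℓ)) = iota ℓ w) (hfix : qScale ζ w = w) :
    w = jS Kb 1 (d * (ℓ * ℓ)) := by
  obtain ⟨Φ, hΦ⟩ := H23.hasModPolys ℓ hℓ
  have hd0 : d ≠ 0 := NeZero.ne d
  -- the modular equation between `j(q^d)` and `j(q^{dℓ})`, as series
  have hrel : (evalY (jS Kb 1 (d * ℓ)) Φ).eval (jS Kb 1 d) = 0 := by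
    have h := (hΦ.eval_jS (R := Kb) hℓ 1 d hd0).1
    rwa [one_pow] at h
  -- the two elements of `F_{Nℓ}`
  set x : ↥(modularFunctionFieldBar (N * ℓ)) := jEl (N * ℓ) d (hd.mul_right ℓ) with hx
  set y : ↥(modularFunctionFieldBar (N * ℓ)) :=
    algebraMap ↥(modularFunctionFieldBar N) ↥(modularFunctionFieldBar (N * ℓ)) (jEl N d hd) with hy
  have hxc : (x : LaurentSeries Kb) = jS Kb 1 d := coe_jEl _ _ _
  have hyc : (y : LaurentSeries Kb) = jS Kb 1 (d * ℓ) := by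
    rw [hy, coe_algebraMap_beta, coe_jEl, ← vq_eq_qExpand ℓ]
    have h := qSub_jS (R := Kb) 1 1 ℓ d (NeZero.ne ℓ) hd0
    rw [qSub_apply, qScale_one, one_pow, mul_one, mul_comm ℓ d] at h
    exact h
  -- the relation inside `F_{Nℓ}`
  have hrelE : (evalY y Φ).eval x = 0 := by
    have hinj : Function.Injective
        (algebraMap ↥(modularFunctionFieldBar (N * ℓ)) (LaurentSeries Kb)) :=
      RingHom.injective _
    apply hinj
    rw [map_zero, map_evalY_eval]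
    show (evalY (y : LaurentSeries Kb) Φ).eval (x : LaurentSeries Kb) = 0
    rw [hxc, hyc]
    exact hrel
  -- transported by `ψ`
  have hψy : ψ y = iota ℓ (jS Kb 1 (d * ℓ)) := by
    rw [hy, ψ.commutes, algebraMap_Om_apply, ← coe_algebraMap_beta, ← hy, hyc]
  have hrelΩ : (evalY (iota ℓ (jS Kb 1 (d * ℓ))) Φ).eval (iota ℓ w) = 0 := by
    have h := map_evalY_eval (ψ : ↥(modularFunctionFieldBar (N * ℓ)) →+* Om ℓ) y x Φ
    rw [hrelE, map_zero] at h
    rw [← hψy, ← hw]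
    exact h.symm
  have hrelw : (evalY (jS Kb 1 (d * ℓ)) Φ).eval w = 0 := by
    apply iota_injective ℓ
    rw [map_zero, map_evalY_eval]
    exact hrelΩ
  -- the factorisation
  have hfact := hΦ.fact_qSub hℓ Kb ζ hζ 1 d hd0
  simp only [one_pow, mul_one] at hfact
  rw [hfact, Polynomial.eval_mul, Polynomial.eval_prod] at hrelw
  simp only [Polynomial.eval_sub, Polynomial.eval_X, Polynomial.eval_C] at hrelw
  rcases mul_eq_zero.mp hrelw with h | h
  · exact sub_eq_zero.mp h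
  · exfalso
    obtain ⟨b, -, hb⟩ := Finset.prod_eq_zero_iff.mp h
    have hwb : w = jS Kb (ζ ^ b) d := sub_eq_zero.mp hb
    have hnd : ¬ (ℓ : ℤ) ∣ (-(d : ℤ)) := by
      rw [Int.dvd_neg, Int.natCast_dvd_natCast]
      exact fun h => hℓN (h.trans hd)
    have h0 := coeff_eq_zero_of_qScale_eq hζ hfix hnd
    rw [hwb, jS_coeff_neg _ _ hd0] at h0
    exact Units.ne_zero _ h0

/-- **The last conjugate**: there is a `β(F_N)`-embedding `ψ` of `F_{Nℓ}` into `Ω` with
`ψ(α c) = c(q^{ℓ²})` for all `c ∈ F_N`, such that norm (and trace) from `F_{Nℓ}` to `β(F_N)` are the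
products (sums) over `ψ` and the `ℓ` substitutions `q ↦ ζ^b q`. -/
theorem exists_last_conjugate (hℓ : ℓ.Prime) (hℓN : ¬ ℓ ∣ N) (ζ : Kbˣ)
    (hζ : IsPrimitiveRoot ζ ℓ) :
    ∃ ψ : ↥(modularFunctionFieldBar (N * ℓ)) →ₐ[↥(modularFunctionFieldBar N)] Om ℓ,
      (∀ c : ↥(modularFunctionFieldBar N),
        ψ (heckeAlphaBar Kb N ℓ c) = iota ℓ (qExpand Kb (ℓ * ℓ) (c : LaurentSeries Kb))) ∧
      ∀ x : ↥(modularFunctionFieldBar (N * ℓ)),
        algebraMap ↥(modularFunctionFieldBar N) (Om ℓ)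
            (Algebra.norm ↥(modularFunctionFieldBar N) x) =
          ψ x * ∏ b ∈ Finset.range ℓ, sig N ℓ ζ hζ.pow_eq_one b x := by
  have hfin : Module.finrank ↥(modularFunctionFieldBar N) ↥(modularFunctionFieldBar (N * ℓ))
      = ℓ + 1 := finrank_beta N ℓ hℓ hℓN
  haveI : FiniteDimensional ↥(modularFunctionFieldBar N) ↥(modularFunctionFieldBar (N * ℓ)) :=
    Module.finite_of_finrank_pos (by rw [hfin]; omega)
  haveI : CharZero ↥(modularFunctionFieldBar N) :=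
    charZero_of_injective_algebraMap (algebraMap Kb ↥(modularFunctionFieldBar N)).injective
  haveI : Algebra.IsSeparable ↥(modularFunctionFieldBar N) ↥(modularFunctionFieldBar (N * ℓ)) :=
    inferInstance
  obtain ⟨ψ, hψ⟩ := exists_last_embedding hfin (sig N ℓ ζ hζ.pow_eq_one) (sig_injOn N ℓ ζ hζ)
  refine ⟨ψ, ?_, fun x => (hψ x).1⟩
  -- the two ring homomorphisms `F_N → Ω`
  set g₁ : ↥(modularFunctionFieldBar N) →+* Om ℓ :=
    (ψ : ↥(modularFunctionFieldBar (N * ℓ)) →+* Om ℓ).comp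
      (heckeAlphaBar Kb N ℓ : ↥(modularFunctionFieldBar N) →+* ↥(modularFunctionFieldBar (N * ℓ)))
    with hg₁
  set g₂ : ↥(modularFunctionFieldBar N) →+* Om ℓ :=
    (iota ℓ).comp ((qExpand Kb (ℓ * ℓ)).comp
      (algebraMap ↥(modularFunctionFieldBar N) (LaurentSeries Kb))) with hg₂
  have hconst : ∀ (n : ℕ) [NeZero n] (a : Kb),
      qExpand Kb n (algebraMap Kb (LaurentSeries Kb) a) = algebraMap Kb (LaurentSeries Kb) a := by
    intro n _ a
    rw [algebraMap_laurentSeries_eq_single, qExpand_single, mul_zero]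
  have hg : g₁ = g₂ := by
    refine ringHom_ext_of_le_adjoin (modularFunctionFieldBar N) (S := divisorExpansionsC Kb N)
      ?_ ?_ g₁ g₂ ?_ ?_
    · rintro _ ⟨d, hne, hdvd, rfl⟩
      haveI := hne
      exact (jEl N d hdvd).2
    · rw [modularFunctionFieldBar_eq_fullC, modularFunctionFieldFullC]
    · intro a
      have e1 : heckeAlphaBar Kb N ℓ (algebraMap Kb ↥(modularFunctionFieldBar N) a) =
          algebraMap ↥(modularFunctionFieldBar N) ↥(modularFunctionFieldBar (N * ℓ))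
            (algebraMap Kb ↥(modularFunctionFieldBar N) a) := by
        apply Subtype.ext
        rw [coe_heckeAlphaBar, coe_algebraMap_beta]
        exact (hconst ℓ a).symm
      show ψ (heckeAlphaBar Kb N ℓ (algebraMap Kb ↥(modularFunctionFieldBar N) a)) =
        iota ℓ (qExpand Kb (ℓ * ℓ) (algebraMap Kb (LaurentSeries Kb) a))
      rw [e1, ψ.commutes, algebraMap_Om_apply, hconst (ℓ * ℓ) a]
      show iota ℓ (qExpand Kb ℓ (algebraMap Kb (LaurentSeries Kb) a)) = _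
      rw [hconst ℓ a]
    · rintro _ ⟨d, hne, hdvd, rfl⟩
      haveI := hne
      have e1 : heckeAlphaBar Kb N ℓ (jEl N d hdvd) = jEl (N * ℓ) d (hdvd.mul_right ℓ) :=
        Subtype.ext (by rw [coe_heckeAlphaBar]; rfl)
      show ψ (heckeAlphaBar Kb N ℓ (jEl N d hdvd)) =
        iota ℓ (qExpand Kb (ℓ * ℓ) (qExpand Kb d (jqModC Kb)))
      rw [e1]
      obtain ⟨w, hw, hfix⟩ := last_embedding_fixed N ℓ ζ hζ.pow_eq_one ψ
        (jEl (N * ℓ) d (hdvd.mul_right ℓ)) (hψ _).2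
      rw [hw, last_embedding_gen N ℓ hℓ hℓN ζ hζ ψ d hdvd w hw hfix, jS_one_eq_jqNModC, jqNModC,
        qExpand_qExpand, qExpand_congr (mul_comm d (ℓ * ℓ))]
  intro c
  exact congrArg (fun g : ↥(modularFunctionFieldBar N) →+* Om ℓ => g c) hg

/-- **(D1) Norm formula**: for `c ∈ F_N`, the norm of `α(c)` from `F_{Nℓ}` down to `F_N` along
`β : q ↦ q^ℓ` has `q`-expansion determined by
`N(α c)(q^ℓ) = c(q^{ℓ²}) · ∏_{b<ℓ} c(ζ^b q)`. -/
theorem qExpand_norm_alpha (hℓ : ℓ.Prime) (hℓN : ¬ ℓ ∣ N) (ζ : Kbˣ) (hζ : IsPrimitiveRoot ζ ℓ)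
    (c : ↥(modularFunctionFieldBar N)) :
    letI := algebraAlong (heckeBetaBar Kb N ℓ)
    qExpand Kb ℓ ((Algebra.norm ↥(modularFunctionFieldBar N) (heckeAlphaBar Kb N ℓ c) :
        ↥(modularFunctionFieldBar N)) : LaurentSeries Kb) =
      qExpand Kb (ℓ * ℓ) (c : LaurentSeries Kb) *
        ∏ b ∈ Finset.range ℓ, qScale (ζ ^ b) (c : LaurentSeries Kb) := by
  obtain ⟨ψ, hψα, hψN⟩ := exists_last_conjugate N ℓ hℓ hℓN ζ hζ
  apply iota_injective ℓ
  have h := hψN (heckeAlphaBar Kb N ℓ c)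
  rw [algebraMap_Om_apply, hψα c] at h
  rw [h, map_mul, map_prod]
  congr 1

/-- **(D1), `heckeKron` form**: `N_{F_{Nℓ}/β(F_N)}(α c) = heckeKron ζ ℓ c` as `q`-series. -/
theorem coe_norm_alpha (hℓ : ℓ.Prime) (hℓN : ¬ ℓ ∣ N) (ζ : Kbˣ) (hζ : IsPrimitiveRoot ζ ℓ)
    (c : ↥(modularFunctionFieldBar N)) :
    letI := algebraAlong (heckeBetaBar Kb N ℓ)
    ((Algebra.norm ↥(modularFunctionFieldBar N) (heckeAlphaBar Kb N ℓ c) :
        ↥(modularFunctionFieldBar N)) : LaurentSeries Kb) = heckeKron ζ ℓ (c : LaurentSeries Kb) :=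
  (heckeKron_eq_of_qExpand_eq (exists_qExpand_eq_prod hζ _)
    (qExpand_norm_alpha N ℓ hℓ hℓN ζ hζ c)).symm


end Modular

end Fermat.Agent.S37.H65
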