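/-
S37 / package P-D (helper65): the `kron` field of `H36.EvalHyp`, in its exact shape, for
`V = heckeBetaBar Kb N p : F_N → F_{N p}` (`q ↦ q^p`) and the Gauss rings `O_N`, `O_{N p}`:

  `V c ∈ O_{N p}  ⇒  V (N_β(α c) - (s⁻¹ • c)^ℓ * (s • c)) ∈ m_{O_{N p}}`.

Ingredients: `kronecker_gaussO_smul` (level `N`) and the two easy transfer facts along `V`
(`beta_mem_nonunits_gaussO`, `mem_gaussO_of_beta_mem`).
-/
import Mathlib
import Fermat.Agent.S37.H65.Conj.KroneckerSmul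
import Fermat.Agent.S37.H36.Along

set_option autoImplicit false
set_option linter.style.haveILetI false
set_option linter.unusedSectionVars false

noncomputable section

namespace Fermat.Agent.S37.H65

open ModularCurve AlgebraicCurve IntermediateField Fermat.Agent.S28 Fermat.Agent.S18.H66

variable (A : ValuationSubring Kb) {ℓ : ℕ} [Fact ℓ.Prime] (N p : ℕ) [NeZero N] [NeZero p]
  (hA : A.LiesOverPrime ℓ) (hℓN : ¬ ℓ ∣ N) (hℓNp : ¬ ℓ ∣ N * p)

/-- `V = (q ↦ q^p)` maps the maximal ideal of `O_N` into the maximal ideal of `O_{N p}`. -/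
theorem beta_mem_nonunits_gaussO {f : ↥(modularFunctionFieldBar N)}
    (hf : f ∈ (gaussO A N hA hℓN).nonunits) :
    heckeBetaBar Kb N p f ∈ (gaussO A (N * p) hA hℓNp).nonunits := by
  obtain ⟨y₁, y₂, hy₁, hy, hyF, hfy⟩ := (mem_nonunits_gaussO_iff A N hA hℓN f).mp hf
  refine (mem_nonunits_gaussO_iff A (N * p) hA hℓNp _).mpr
    ⟨qExpand A p y₁, qExpand A p y₂, ?_, ?_, ?_, ?_⟩
  · rw [coeffMap_qExpand, hy₁, map_zero]
  · rw [coeffMap_qExpand]
    intro h
    apply hy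
    apply qExpand_injective p
    rw [h, map_zero]
  · rw [coeffMap_qExpand]
    exact (heckeBetaBar Kb N p ⟨coeffMap A.subtype y₂, hyF⟩).2
  · rw [coe_heckeBetaBar, coeffMap_qExpand, coeffMap_qExpand, ← map_mul, hfy]

/-- `V = (q ↦ q^p)` maps `O_N` into `O_{N p}`. -/
theorem beta_mem_gaussO {f : ↥(modularFunctionFieldBar N)} (hf : f ∈ gaussO A N hA hℓN) :
    heckeBetaBar Kb N p f ∈ gaussO A (N * p) hA hℓNp := by
  obtain ⟨y₁, y₂, hy, hyF, hfy⟩ := (mem_gaussO_iff A N hA hℓN f).mp hf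
  refine (mem_gaussO_iff A (N * p) hA hℓNp _).mpr ⟨qExpand A p y₁, qExpand A p y₂, ?_, ?_, ?_⟩
  · rw [coeffMap_qExpand]
    intro h
    apply hy
    apply qExpand_injective p
    rw [h, map_zero]
  · rw [coeffMap_qExpand]
    exact (heckeBetaBar Kb N p ⟨coeffMap A.subtype y₂, hyF⟩).2
  · rw [coe_heckeBetaBar, coeffMap_qExpand, coeffMap_qExpand, ← map_mul, hfy]

/-- `V c ∈ O_{N p} ⇒ c ∈ O_N`. -/
theorem mem_gaussO_of_beta_mem {c : ↥(modularFunctionFieldBar N)}
    (hc : heckeBetaBar Kb N p c ∈ gaussO A (N * p) hA hℓNp) : c ∈ gaussO A N hA hℓN := by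
  by_contra hcO
  have h1 : c⁻¹ ∈ (gaussO A N hA hℓN).nonunits := by
    rw [ValuationSubring.mem_nonunits_iff_or, inv_inv]
    exact Or.inr hcO
  have h2 := beta_mem_nonunits_gaussO A N p hA hℓN hℓNp h1
  rw [map_inv₀, ValuationSubring.mem_nonunits_iff_or, inv_inv] at h2
  rcases h2 with h2 | h2
  · rw [inv_eq_zero, map_eq_zero] at h2
    apply hcO
    rw [h2]
    exact (gaussO A N hA hℓN).zero_mem
  · exact h2 hc

theorem beta_mem_gaussO_iff (c : ↥(modularFunctionFieldBar N)) :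
    heckeBetaBar Kb N p c ∈ gaussO A (N * p) hA hℓNp ↔ c ∈ gaussO A N hA hℓN :=
  ⟨mem_gaussO_of_beta_mem A N p hA hℓN hℓNp, beta_mem_gaussO A N p hA hℓN hℓNp⟩

include hℓN in
/-- **The `kron` field of `H36.EvalHyp`** for `V = heckeBetaBar Kb N p`, `α = heckeAlphaBar Kb N ℓ`,
`β = heckeBetaBar Kb N ℓ`, `O = gaussO A (N * p)`, `g₁ = arithmeticGalois _ s` with `s` a
Frobenius at `A`. -/
theorem kron_field {s : Kb ≃ₐ[ℚ] Kb} (hs : A.IsFrobeniusAt s ℓ) :
    ∀ c : ↥(modularFunctionFieldBar N),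
      heckeBetaBar Kb N p c ∈ gaussO A (N * p) hA hℓNp →
      heckeBetaBar Kb N p
          (Fermat.Agent.S37.H36.normAlong (heckeBetaBar Kb N ℓ) (heckeAlphaBar Kb N ℓ c) -
            ((arithmeticGalois (modularFunctionFieldFull N) s)⁻¹ • c) ^ ℓ *
              (arithmeticGalois (modularFunctionFieldFull N) s • c)) ∈
        (gaussO A (N * p) hA hℓNp).nonunits := by
  intro c hc
  have hcN : c ∈ gaussO A N hA hℓN := mem_gaussO_of_beta_mem A N p hA hℓN hℓNp hc
  exact beta_mem_nonunits_gaussO A N p hA hℓN hℓNp (kronecker_gaussO_smul A N hA hℓN hs hcN).2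

end Fermat.Agent.S37.H65
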