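/-
S37 / package P-D (helper65), part (D3): the Kronecker congruence in the Gauss ring.

`A` a valuation subring of `ℚ̄` over `ℓ`, `O_N = H66.gaussO A N` the Gauss ring of `F_N`
(`ℓ ∤ N`), Galois action on `F_N` = the Prelude `arithmeticRingAut` (coefficientwise).

* `galA g`                  : the coefficientwise action of `g ∈ D_A` on `A((q))`;
* `arithmeticRingAut_mem_gaussO`, `…_mem_nonunits_gaussO` : `O_N` and `m_{O_N}` are stable under
                              the decomposition group `D_A`;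
* `arithmeticRingAut_sub_mem_nonunits` : inertia acts trivially modulo `m_{O_N}`;
* `norm_alpha_mem_gaussO`   : `c ∈ O_N ⇒ c* := N_{F_{Nℓ}/β(F_N)}(α c) ∈ O_N`;
* `kronecker_gaussO`        : **Kronecker / Eichler–Shimura congruence**: for `s` a Frobenius at `A`
                              and `c ∈ O_N`:  `c* - (s⁻¹ c)^ℓ · (s c) ∈ m_{O_N}`.
-/
import Mathlib
import Fermat.Agent.S37.H65.Conj.Norm
import Fermat.Agent.S18.H66.GaussRing
import Fermat.Prelude.Def_EllipticCurve_FrobeniusTrace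
import Fermat.Prelude.Def_FLTPrelim_Ramification
import Fermat.Prelude.Def_ModularCurve_ArithmeticGalois

set_option autoImplicit false
set_option linter.style.haveILetI false
set_option linter.unusedSectionVars false

noncomputable section

namespace Fermat.Agent.S37.H65

open ModularCurve AlgebraicCurve IntermediateField Fermat.Agent.S28 Fermat.Agent.S18.H66

section RootsOfUnity

variable {K : Type*} [Field K] (A : ValuationSubring K)

/-- Roots of unity lie in every valuation subring. -/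
theorem mem_of_pow_eq_one {x : K} {n : ℕ} (hn : n ≠ 0) (hx : x ^ n = 1) : x ∈ A := by
  rcases A.mem_or_inv_mem x with h | h
  · exact h
  · obtain ⟨m, rfl⟩ : ∃ m, n = m + 1 := ⟨n - 1, by omega⟩
    have hx0 : x ≠ 0 := by
      rintro rfl
      simp at hx
    have h1 : x = (x⁻¹) ^ m := by
      rw [inv_pow]
      exact eq_inv_of_mul_eq_one_left (by rw [← pow_succ']; exact hx)
    rw [h1]
    exact pow_mem h m

/-- A root of unity of `K`, as a unit of `A`. -/
def unitOfPowEqOne (ζ : Kˣ) {n : ℕ} (hn : n ≠ 0) (hζ : ζ ^ n = 1) : (↥A)ˣ where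
  val := ⟨(ζ : K), mem_of_pow_eq_one A hn (by rw [← Units.val_pow_eq_pow_val, hζ, Units.val_one])⟩
  inv := ⟨((ζ⁻¹ : Kˣ) : K), mem_of_pow_eq_one A hn
    (by rw [← Units.val_pow_eq_pow_val, inv_pow, hζ, inv_one, Units.val_one])⟩
  val_inv := Subtype.ext (by simp)
  inv_val := Subtype.ext (by simp)

theorem map_unitOfPowEqOne (ζ : Kˣ) {n : ℕ} (hn : n ≠ 0) (hζ : ζ ^ n = 1) :
    Units.map A.subtype.toMonoidHom (unitOfPowEqOne A ζ hn hζ) = ζ :=
  Units.ext rfl

theorem isPrimitiveRoot_unitOfPowEqOne (ζ : Kˣ) {n : ℕ} (hn : n ≠ 0) (hζ : IsPrimitiveRoot ζ n) :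
    IsPrimitiveRoot (unitOfPowEqOne A ζ hn hζ.pow_eq_one) n := by
  have hinj : Function.Injective (Units.map A.subtype.toMonoidHom) :=
    Units.map_injective (Subtype.val_injective)
  have h : IsPrimitiveRoot (Units.map A.subtype.toMonoidHom (unitOfPowEqOne A ζ hn hζ.pow_eq_one)) n := by
    rw [map_unitOfPowEqOne]
    exact hζ
  exact (IsPrimitiveRoot.map_iff_of_injective hinj).mp h

end RootsOfUnity

section GaloisOnIntegralSeries

variable (A : ValuationSubring Kb)

/-- The action of `g ∈ D_A` on `A`, as a ring homomorphism. -/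
def actA (g : A.decompositionSubgroup ℚ) : ↥A →+* ↥A :=
  MulSemiringAction.toRingHom (A.decompositionSubgroup ℚ) A g

/-- The action of `g ∈ D_A` on the residue field of `A`, as a ring homomorphism. -/
def actK (g : A.decompositionSubgroup ℚ) :
    IsLocalRing.ResidueField A →+* IsLocalRing.ResidueField A :=
  MulSemiringAction.toRingHom (A.decompositionSubgroup ℚ) (IsLocalRing.ResidueField A) g

theorem subtype_comp_actA (g : A.decompositionSubgroup ℚ) :
    A.subtype.comp (actA A g) = (((g : Kb ≃ₐ[ℚ] Kb) : Kb →+* Kb)).comp A.subtype :=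
  RingHom.ext fun _ => rfl

theorem residue_comp_actA (g : A.decompositionSubgroup ℚ) :
    (IsLocalRing.residue A).comp (actA A g) = (actK A g).comp (IsLocalRing.residue A) :=
  RingHom.ext fun a => IsLocalRing.ResidueField.residue_smul (A.decompositionSubgroup ℚ) g a

/-- The coefficientwise action of `g ∈ D_A` on `A((q))`. -/
def galA (g : A.decompositionSubgroup ℚ) : LaurentSeries A →+* LaurentSeries A :=
  coeffMap (actA A g)

theorem incl_galA (g : A.decompositionSubgroup ℚ) (y : LaurentSeries A) :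
    incl A (galA A g y) = coeffMap (((g : Kb ≃ₐ[ℚ] Kb) : Kb →+* Kb)) (incl A y) := by
  show coeffMap A.subtype (coeffMap (actA A g) y) =
    coeffMap (((g : Kb ≃ₐ[ℚ] Kb) : Kb →+* Kb)) (coeffMap A.subtype y)
  rw [coeffMap_coeffMap, coeffMap_coeffMap, subtype_comp_actA]

theorem redA_galA (g : A.decompositionSubgroup ℚ) (y : LaurentSeries A) :
    redA A (galA A g y) = coeffMap (actK A g) (redA A y) := by
  show coeffMap (IsLocalRing.residue A) (coeffMap (actA A g) y) =
    coeffMap (actK A g) (coeffMap (IsLocalRing.residue A) y)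
  rw [coeffMap_coeffMap, coeffMap_coeffMap, residue_comp_actA]

theorem actK_comp_actK_inv (g : A.decompositionSubgroup ℚ) :
    (actK A g).comp (actK A g⁻¹) = RingHom.id _ :=
  RingHom.ext fun x => by
    show g • (g⁻¹ • x) = x
    rw [smul_inv_smul]

theorem actK_injective (g : A.decompositionSubgroup ℚ) : Function.Injective (actK A g) :=
  RingHom.injective _

theorem redA_galA_ne_zero (g : A.decompositionSubgroup ℚ) {y : LaurentSeries A}
    (hy : redA A y ≠ 0) : redA A (galA A g y) ≠ 0 := by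
  rw [redA_galA]
  intro h
  apply hy
  apply coeffMap_injective (actK A g) (actK_injective A g)
  rw [h, map_zero]

end GaloisOnIntegralSeries

section GaussRing

variable (A : ValuationSubring Kb) {ℓ : ℕ} [Fact ℓ.Prime] (N : ℕ) [NeZero N]
  (hA : A.LiesOverPrime ℓ) (hℓN : ¬ ℓ ∣ N)

/-- A presentation `c = Y₁ / Y₂` is transported by `g ∈ D_A` to a presentation of `g c`. -/
theorem galois_presentation (g : A.decompositionSubgroup ℚ) {c : ↥(modularFunctionFieldBar N)}
    {y₁ y₂ : LaurentSeries A} (h : (c : LaurentSeries Kb) * incl A y₂ = incl A y₁) :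
    ((arithmeticRingAut (modularFunctionFieldFull N) (g : Kb ≃ₐ[ℚ] Kb) c :
        ↥(modularFunctionFieldBar N)) : LaurentSeries Kb) * incl A (galA A g y₂) =
      incl A (galA A g y₁) := by
  rw [coe_arithmeticRingAut_apply, incl_galA, incl_galA, ← map_mul, h]

theorem incl_galA_mem (g : A.decompositionSubgroup ℚ) {y : LaurentSeries A}
    (hy : incl A y ∈ modularFunctionFieldBar N) :
    incl A (galA A g y) ∈ modularFunctionFieldBar N := by
  rw [incl_galA]
  exact coeffMap_mem_laurentBaseChange _ hy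

/-- The Gauss ring is stable under the decomposition group. -/
theorem arithmeticRingAut_mem_gaussO (g : A.decompositionSubgroup ℚ)
    {c : ↥(modularFunctionFieldBar N)} (hc : c ∈ gaussO A N hA hℓN) :
    arithmeticRingAut (modularFunctionFieldFull N) (g : Kb ≃ₐ[ℚ] Kb) c ∈ gaussO A N hA hℓN := by
  obtain ⟨y₁, y₂, hy, hyF, hfy⟩ := (mem_gaussO_iff A N hA hℓN c).mp hc
  exact (mem_gaussO_iff A N hA hℓN _).mpr ⟨galA A g y₁, galA A g y₂, redA_galA_ne_zero A g hy,
    incl_galA_mem A N g hyF, galois_presentation A N g hfy⟩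

/-- The maximal ideal of the Gauss ring is stable under the decomposition group. -/
theorem arithmeticRingAut_mem_nonunits_gaussO (g : A.decompositionSubgroup ℚ)
    {c : ↥(modularFunctionFieldBar N)} (hc : c ∈ (gaussO A N hA hℓN).nonunits) :
    arithmeticRingAut (modularFunctionFieldFull N) (g : Kb ≃ₐ[ℚ] Kb) c ∈
      (gaussO A N hA hℓN).nonunits := by
  obtain ⟨y₁, y₂, hy₁, hy, hyF, hfy⟩ := (mem_nonunits_gaussO_iff A N hA hℓN c).mp hc
  refine (mem_nonunits_gaussO_iff A N hA hℓN _).mpr ⟨galA A g y₁, galA A g y₂, ?_,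
    redA_galA_ne_zero A g hy, incl_galA_mem A N g hyF, galois_presentation A N g hfy⟩
  have h := redA_galA A g y₁
  rw [show redA A y₁ = 0 from hy₁, map_zero] at h
  exact h

/-- **Inertia acts trivially modulo the maximal ideal of the Gauss ring.** -/
theorem arithmeticRingAut_sub_mem_nonunits {σ : Kb ≃ₐ[ℚ] Kb} (hσ : σ ∈ A.inertiaSubgroupIn ℚ)
    {c : ↥(modularFunctionFieldBar N)} (hc : c ∈ gaussO A N hA hℓN) :
    arithmeticRingAut (modularFunctionFieldFull N) σ c - c ∈ (gaussO A N hA hℓN).nonunits := by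
  obtain ⟨g, hg, rfl⟩ := hσ
  show arithmeticRingAut (modularFunctionFieldFull N) (g : Kb ≃ₐ[ℚ] Kb) c - c ∈
    (gaussO A N hA hℓN).nonunits
  have hK : actK A g = RingHom.id _ := by
    have h1 : MulSemiringAction.toRingAut (A.decompositionSubgroup ℚ)
        (IsLocalRing.ResidueField A) g = 1 := MonoidHom.mem_ker.mp hg
    ext x
    exact congrArg (fun e : RingAut (IsLocalRing.ResidueField A) => e x) h1
  obtain ⟨y₁, y₂, hy, hyF, hfy⟩ := (mem_gaussO_iff A N hA hℓN c).mp hc
  have h1 := galois_presentation A N g hfy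
  refine (mem_nonunits_gaussO_iff A N hA hℓN _).mpr
    ⟨galA A g y₁ * y₂ - y₁ * galA A g y₂, galA A g y₂ * y₂, ?_, ?_, ?_, ?_⟩
  · have e : ∀ y : LaurentSeries A, redA A (galA A g y) = redA A y := by
      intro y
      rw [redA_galA, hK, coeffMap_id]
    show redA A (galA A g y₁ * y₂ - y₁ * galA A g y₂) = 0
    rw [map_sub, map_mul, map_mul, e, e, sub_self]
  · show redA A (galA A g y₂ * y₂) ≠ 0
    rw [map_mul]
    exact mul_ne_zero (redA_galA_ne_zero A g hy) hy
  · show incl A (galA A g y₂ * y₂) ∈ modularFunctionFieldBar N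
    rw [map_mul]
    exact mul_mem (incl_galA_mem A N g hyF) hyF
  · show ((arithmeticRingAut (modularFunctionFieldFull N) (g : Kb ≃ₐ[ℚ] Kb) c
        - c : ↥(modularFunctionFieldBar N)) : LaurentSeries Kb) * incl A (galA A g y₂ * y₂) =
      incl A (galA A g y₁ * y₂ - y₁ * galA A g y₂)
    rw [map_sub, map_mul, map_mul, map_mul, ← h1, ← hfy, AddSubgroupClass.coe_sub]
    show (_ - _) * _ = _
    ring

include hℓN in
/-- Presentation of `c* = N_{F_{Nℓ}/β(F_N)}(α c)` from a presentation `c = Y₁ / Y₂`: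
`c* = K(Y₁) / K(Y₂)` with `K = heckeKron`. -/
theorem norm_alpha_presentation {c : ↥(modularFunctionFieldBar N)} {y₁ y₂ : LaurentSeries A}
    (hyF : incl A y₂ ∈ modularFunctionFieldBar N)
    (hfy : (c : LaurentSeries Kb) * incl A y₂ = incl A y₁) (ζA : (↥A)ˣ)
    (hζA : IsPrimitiveRoot ζA ℓ) :
    letI := algebraAlong (heckeBetaBar Kb N ℓ)
    incl A (heckeKron ζA ℓ y₂) ∈ modularFunctionFieldBar N ∧
      ((Algebra.norm ↥(modularFunctionFieldBar N) (heckeAlphaBar Kb N ℓ c) :
          ↥(modularFunctionFieldBar N)) : LaurentSeries Kb) * incl A (heckeKron ζA ℓ y₂) =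
        incl A (heckeKron ζA ℓ y₁) := by
  letI := algebraAlong (heckeBetaBar Kb N ℓ)
  have hℓ : ℓ.Prime := Fact.out
  set ζ : Kbˣ := Units.map A.subtype.toMonoidHom ζA with hζdef
  have hζ : IsPrimitiveRoot ζ ℓ :=
    hζA.map_of_injective (Units.map_injective (Subtype.val_injective))
  have hK : ∀ y : LaurentSeries A, incl A (heckeKron ζA ℓ y) = heckeKron ζ ℓ (incl A y) :=
    fun y => coeffMap_heckeKron A.subtype hζA hζ y
  have hy₁F : incl A y₁ ∈ modularFunctionFieldBar N := by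
    rw [← hfy]
    exact mul_mem c.2 hyF
  set c₁ : ↥(modularFunctionFieldBar N) := ⟨incl A y₁, hy₁F⟩ with hc₁
  set c₂ : ↥(modularFunctionFieldBar N) := ⟨incl A y₂, hyF⟩ with hc₂
  have hc : c * c₂ = c₁ := Subtype.ext hfy
  have hn : Algebra.norm ↥(modularFunctionFieldBar N) (heckeAlphaBar Kb N ℓ c) *
      Algebra.norm ↥(modularFunctionFieldBar N) (heckeAlphaBar Kb N ℓ c₂) =
      Algebra.norm ↥(modularFunctionFieldBar N) (heckeAlphaBar Kb N ℓ c₁) := by
    rw [← map_mul, ← map_mul, hc]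
  have h₁ := coe_norm_alpha N ℓ hℓ hℓN ζ hζ c₁
  have h₂ := coe_norm_alpha N ℓ hℓ hℓN ζ hζ c₂
  refine ⟨?_, ?_⟩
  · rw [hK]
    have : heckeKron ζ ℓ (incl A y₂) =
        ((Algebra.norm ↥(modularFunctionFieldBar N) (heckeAlphaBar Kb N ℓ c₂) :
          ↥(modularFunctionFieldBar N)) : LaurentSeries Kb) := h₂.symm
    rw [this]
    exact Subtype.property _
  · rw [hK, hK]
    have h := congrArg (Subtype.val) hn
    rw [MulMemClass.coe_mul] at h
    rw [show heckeKron ζ ℓ (incl A y₂) = _ from h₂.symm, show heckeKron ζ ℓ (incl A y₁) = _ from h₁.symm]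
    exact h

theorem redA_heckeKron (ζA : (↥A)ˣ) (hζA : IsPrimitiveRoot ζA ℓ) (y : LaurentSeries A) :
    haveI := charP_residueField A hA
    redA A (heckeKron ζA ℓ y) =
      qExpand _ ℓ (redA A y) * coeffMap (frobenius (IsLocalRing.ResidueField A) ℓ) (redA A y) := by
  haveI := charP_residueField A hA
  exact coeffMap_heckeKron_of_char ℓ (IsLocalRing.residue A) hζA y

include hA in
theorem redA_heckeKron_ne_zero (ζA : (↥A)ˣ) (hζA : IsPrimitiveRoot ζA ℓ) {y : LaurentSeries A}
    (hy : redA A y ≠ 0) : redA A (heckeKron ζA ℓ y) ≠ 0 := by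
  haveI := charP_residueField A hA
  rw [redA_heckeKron A hA ζA hζA y]
  refine mul_ne_zero ?_ ?_
  · intro h
    apply hy
    apply qExpand_injective ℓ
    rw [h, map_zero]
  · intro h
    apply hy
    apply coeffMap_injective _ (RingHom.injective (frobenius (IsLocalRing.ResidueField A) ℓ))
    rw [h, map_zero]

/-- `c ∈ O_N ⇒ N_{F_{Nℓ}/β(F_N)}(α c) ∈ O_N`. -/
theorem norm_alpha_mem_gaussO {c : ↥(modularFunctionFieldBar N)} (hc : c ∈ gaussO A N hA hℓN) :
    letI := algebraAlong (heckeBetaBar Kb N ℓ)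
    Algebra.norm ↥(modularFunctionFieldBar N) (heckeAlphaBar Kb N ℓ c) ∈ gaussO A N hA hℓN := by
  letI := algebraAlong (heckeBetaBar Kb N ℓ)
  have hℓ : ℓ.Prime := Fact.out
  obtain ⟨ζ, hζ⟩ := exists_zetaB ℓ hℓ
  set ζA := unitOfPowEqOne A ζ hℓ.ne_zero hζ.pow_eq_one with hζAdef
  have hζA : IsPrimitiveRoot ζA ℓ := isPrimitiveRoot_unitOfPowEqOne A ζ hℓ.ne_zero hζ
  obtain ⟨y₁, y₂, hy, hyF, hfy⟩ := (mem_gaussO_iff A N hA hℓN c).mp hc
  obtain ⟨hmem, heq⟩ := norm_alpha_presentation A N hℓN hyF hfy ζA hζA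
  exact (mem_gaussO_iff A N hA hℓN _).mpr ⟨heckeKron ζA ℓ y₁, heckeKron ζA ℓ y₂,
    redA_heckeKron_ne_zero A hA ζA hζA hy, hmem, heq⟩

/-- **Kronecker / Eichler–Shimura congruence in the Gauss ring**: for a Frobenius `s` at `A` and
`c ∈ O_N`, with `c* = N_{F_{Nℓ}/β(F_N)}(α c)` (so that `T_ℓ`-products of values of `c` are values
of `c*`):  `c* ≡ (s⁻¹ c)^ℓ · (s c)` modulo the maximal ideal of `O_N`. -/
theorem kronecker_gaussO {s : Kb ≃ₐ[ℚ] Kb} (hs : A.IsFrobeniusAt s ℓ)
    {c : ↥(modularFunctionFieldBar N)} (hc : c ∈ gaussO A N hA hℓN) :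
    letI := algebraAlong (heckeBetaBar Kb N ℓ)
    Algebra.norm ↥(modularFunctionFieldBar N) (heckeAlphaBar Kb N ℓ c) -
        (arithmeticRingAut (modularFunctionFieldFull N) s⁻¹ c) ^ ℓ *
          arithmeticRingAut (modularFunctionFieldFull N) s c ∈ (gaussO A N hA hℓN).nonunits := by
  letI := algebraAlong (heckeBetaBar Kb N ℓ)
  haveI := charP_residueField A hA
  have hℓ : ℓ.Prime := Fact.out
  obtain ⟨ζ, hζ⟩ := exists_zetaB ℓ hℓ
  set ζA := unitOfPowEqOne A ζ hℓ.ne_zero hζ.pow_eq_one with hζAdef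
  have hζA : IsPrimitiveRoot ζA ℓ := isPrimitiveRoot_unitOfPowEqOne A ζ hℓ.ne_zero hζ
  obtain ⟨y₁, y₂, hy, hyF, hfy⟩ := (mem_gaussO_iff A N hA hℓN c).mp hc
  obtain ⟨hmem, heq⟩ := norm_alpha_presentation A N hℓN hyF hfy ζA hζA
  -- the Frobenius and its inverse in the decomposition group
  set g : A.decompositionSubgroup ℚ := ⟨s, hs.mem_decompositionSubgroup⟩ with hg
  have hfrob : actK A g = frobenius (IsLocalRing.ResidueField A) ℓ :=
    RingHom.ext fun x => by
      rw [frobenius_def]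
      exact hs.smul_residue_eq x
  have hg1 := galois_presentation A N g hfy
  have hg2 := galois_presentation A N g⁻¹ hfy
  -- reductions
  have hred : ∀ y : LaurentSeries A,
      redA A (galA A g⁻¹ y ^ ℓ * galA A g y) = redA A (heckeKron ζA ℓ y) := by
    intro y
    rw [redA_heckeKron A hA ζA hζA y, map_mul, map_pow, pow_char_eq_qExpand ℓ, redA_galA A g y,
      hfrob]
    congr 2
    rw [← hfrob, redA_galA, coeffMap_coeffMap, actK_comp_actK_inv, coeffMap_id]
  have hk₂0 : redA A (heckeKron ζA ℓ y₂) ≠ 0 := redA_heckeKron_ne_zero A hA ζA hζA hy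
  obtain ⟨k₁, hk₁⟩ : ∃ k, k = heckeKron ζA ℓ y₁ := ⟨_, rfl⟩
  obtain ⟨k₂, hk₂⟩ : ∃ k, k = heckeKron ζA ℓ y₂ := ⟨_, rfl⟩
  obtain ⟨u₁, hu₁⟩ : ∃ u, u = galA A g⁻¹ y₁ ^ ℓ * galA A g y₁ := ⟨_, rfl⟩
  obtain ⟨u₂, hu₂⟩ : ∃ u, u = galA A g⁻¹ y₂ ^ ℓ * galA A g y₂ := ⟨_, rfl⟩
  rw [← hk₂] at hmem heq hk₂0
  rw [← hk₁] at heq
  have hr₁ : redA A u₁ = redA A k₁ := by rw [hu₁, hk₁]; exact hred y₁
  have hr₂ : redA A u₂ = redA A k₂ := by rw [hu₂, hk₂]; exact hred y₂
  have hm : incl A u₂ ∈ modularFunctionFieldBar N := by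
    rw [hu₂, map_mul, map_pow]
    exact mul_mem (pow_mem (incl_galA_mem A N g⁻¹ hyF) ℓ) (incl_galA_mem A N g hyF)
  have hT : ((arithmeticRingAut (modularFunctionFieldFull N) s⁻¹ c : ↥(modularFunctionFieldBar N))
        : LaurentSeries Kb) ^ ℓ *
      ((arithmeticRingAut (modularFunctionFieldFull N) s c : ↥(modularFunctionFieldBar N))
        : LaurentSeries Kb) * incl A u₂ = incl A u₁ := by
    rw [hu₁, hu₂, map_mul, map_mul, map_pow, map_pow, ← hg1, ← hg2]
    show _ = (((arithmeticRingAut (modularFunctionFieldFull N) s⁻¹ c :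
      ↥(modularFunctionFieldBar N)) : LaurentSeries Kb) * _) ^ ℓ *
      (((arithmeticRingAut (modularFunctionFieldFull N) s c :
      ↥(modularFunctionFieldBar N)) : LaurentSeries Kb) * _)
    ring
  refine (mem_nonunits_gaussO_iff A N hA hℓN _).mpr ⟨k₁ * u₂ - u₁ * k₂, k₂ * u₂, ?_, ?_, ?_, ?_⟩
  · show redA A (k₁ * u₂ - u₁ * k₂) = 0
    rw [map_sub, map_mul, map_mul, hr₁, hr₂, sub_self]
  · show redA A (k₂ * u₂) ≠ 0
    rw [map_mul, hr₂]
    exact mul_ne_zero hk₂0 hk₂0
  · show incl A (k₂ * u₂) ∈ modularFunctionFieldBar N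
    rw [map_mul]
    exact mul_mem hmem hm
  · show ((Algebra.norm ↥(modularFunctionFieldBar N) (heckeAlphaBar Kb N ℓ c) -
        (arithmeticRingAut (modularFunctionFieldFull N) s⁻¹ c) ^ ℓ *
          arithmeticRingAut (modularFunctionFieldFull N) s c : ↥(modularFunctionFieldBar N)) :
        LaurentSeries Kb) * incl A (k₂ * u₂) = incl A (k₁ * u₂ - u₁ * k₂)
    rw [map_sub, map_mul, map_mul, map_mul, ← heq, ← hT, AddSubgroupClass.coe_sub,
      MulMemClass.coe_mul, SubmonoidClass.coe_pow]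
    ring

end GaussRing

end Fermat.Agent.S37.H65
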