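/-
S37 / package P-D (helper65): `kronecker_gaussO` in the shape asked by the S37 coordinator
(coord #3, item 1): conjunction `c* ∈ O_N ∧ c* - (s⁻¹ • c)^ℓ * (s • c) ∈ m_{O_N}` with the Galois
action written as the `SemilinearAut` action of `arithmeticGalois (modularFunctionFieldFull N) s`.
-/
import Mathlib
import Fermat.Agent.S37.H65.Conj.Kronecker

set_option autoImplicit false
set_option linter.style.haveILetI false
set_option linter.unusedSectionVars false

noncomputable section

namespace Fermat.Agent.S37.H65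

open ModularCurve AlgebraicCurve IntermediateField Fermat.Agent.S28 Fermat.Agent.S18.H66

variable (A : ValuationSubring Kb) {ℓ : ℕ} [Fact ℓ.Prime] (N : ℕ) [NeZero N]
  (hA : A.LiesOverPrime ℓ) (hℓN : ¬ ℓ ∣ N)

theorem arithmeticGalois_smul_eq (σ : Kb ≃ₐ[ℚ] Kb) (c : ↥(modularFunctionFieldBar N)) :
    arithmeticGalois (modularFunctionFieldFull N) σ • c =
      arithmeticRingAut (modularFunctionFieldFull N) σ c :=
  rfl

theorem arithmeticGalois_inv_smul_eq (σ : Kb ≃ₐ[ℚ] Kb) (c : ↥(modularFunctionFieldBar N)) :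
    (arithmeticGalois (modularFunctionFieldFull N) σ)⁻¹ • c =
      arithmeticRingAut (modularFunctionFieldFull N) σ⁻¹ c := by
  rw [← map_inv]
  rfl

/-- **Kronecker congruence, `SemilinearAut` form** (the `kron` input of `H36.EvalHyp` at level
`N`, before pulling back along `V`). -/
theorem kronecker_gaussO_smul {s : Kb ≃ₐ[ℚ] Kb} (hs : A.IsFrobeniusAt s ℓ)
    {c : ↥(modularFunctionFieldBar N)} (hc : c ∈ gaussO A N hA hℓN) :
    letI := algebraAlong (heckeBetaBar Kb N ℓ)
    Algebra.norm ↥(modularFunctionFieldBar N) (heckeAlphaBar Kb N ℓ c) ∈ gaussO A N hA hℓN ∧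
      Algebra.norm ↥(modularFunctionFieldBar N) (heckeAlphaBar Kb N ℓ c) -
          ((arithmeticGalois (modularFunctionFieldFull N) s)⁻¹ • c) ^ ℓ *
            (arithmeticGalois (modularFunctionFieldFull N) s • c) ∈
        (gaussO A N hA hℓN).nonunits := by
  letI := algebraAlong (heckeBetaBar Kb N ℓ)
  refine ⟨norm_alpha_mem_gaussO A N hA hℓN hc, ?_⟩
  rw [arithmeticGalois_inv_smul_eq, arithmeticGalois_smul_eq]
  exact kronecker_gaussO A N hA hℓN hs hc

end Fermat.Agent.S37.H65
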